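import Fermat.Agent.Global.CFT.FirstIneq
import Fermat.Agent.Global.Semilocal.SemiUnits

/-!
# The first inequality for quadratic layers of totally complex fields
-/

set_option autoImplicit false
set_option linter.unusedSectionVars false
set_option synthInstance.maxHeartbeats 400000

noncomputable section

open Module NumberField

namespace FLTAgent.LT.Recip

open FLTAgent.Global

local instance : Fact (Nat.Prime 2) := ⟨Nat.prime_two⟩

/-- The rank of the `T`-units of a totally complex field. -/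
theorem sUnit_rank (L : Level) {H : Subgroup GQ} (hH : L.grp ≤ H)
    (hc : IsTotallyComplex (fixField H)) (T : Finset Nat.Primes) :
    Module.Finite ℤ ↥(sUnit T ⊓ fixSub H).toIntSubmodule ∧
    2 * (Module.finrank ℤ ↥(sUnit T ⊓ fixSub H).toIntSubmodule + 1)
      = H.index + 2 * ∑ q ∈ T, Nat.card (Places q H) := by
  classical
  have := numberField_fixField L hH
  have : ∀ q, Finite (Places q H) := finite_places_of_le L hH
  have : Fintype (PlaceSet T H) := Fintype.ofFinite _
  let v := (valMap L hH T).toIntLinearMap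
  let ψ := (unitsMap (H := H) T).toIntLinearMap
  have hker : LinearMap.ker v = LinearMap.range ψ := by
    ext a
    exact (SetLike.ext_iff.1 (range_unitsMap L hH T) a).symm
  have hfin : Module.Finite ℤ ↥(sUnit T ⊓ fixSub (A := QMul) H) := by
    constructor
    refine Submodule.fg_of_fg_map_of_fg_inf_ker v (IsNoetherian.noetherian _) ?_
    rw [top_inf_eq, hker, ← Submodule.map_top]
    exact (Module.Finite.fg_top).map _
  have hr : finrank ℤ (LinearMap.range v) = Fintype.card (PlaceSet T H) := by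
    refine le_antisymm ?_ ?_
    · exact (Submodule.finrank_le _).trans (Module.finrank_fintype_fun_eq_card ℤ).le
    · choose a n hn hai haj using exists_valMap_eq_single L hH T
      let Λ : (PlaceSet T H → ℤ) →ₗ[ℤ] (PlaceSet T H → ℤ) :=
        LinearMap.pi fun i => n i • LinearMap.proj i
      have hinj : Function.Injective Λ := fun f g h => funext fun i => by
        have := congrFun h i
        simpa [Λ, hn i] using this
      have hle : LinearMap.range Λ ≤ LinearMap.range v := by
        rintro _ ⟨f, rfl⟩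
        refine ⟨∑ i, f i • a i, funext fun j => ?_⟩
        rw [map_sum, Finset.sum_apply, Finset.sum_eq_single j]
        · rw [map_smul, Pi.smul_apply]
          show f j • valMap L hH T (a j) j = n j • f j
          rw [hai, smul_eq_mul, smul_eq_mul, mul_comm]
        · intro i _ hij
          rw [map_smul, Pi.smul_apply]
          show f i • valMap L hH T (a i) j = 0
          rw [haj i j (Ne.symm hij), smul_zero]
        · simp
      refine le_trans ?_ (Submodule.finrank_mono hle)
      rw [← (LinearEquiv.ofInjective Λ hinj).finrank_eq, Module.finrank_fintype_fun_eq_card]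
  have hcard : Fintype.card (PlaceSet T H) = ∑ q ∈ T, Nat.card (Places q H) := by
    rw [← Nat.card_eq_fintype_card, Nat.card_sigma, ← Finset.sum_coe_sort T fun q => Nat.card (Places q H)]
  have hrank : 2 * (finrank ℤ ↥(sUnit T ⊓ fixSub (A := QMul) H) + 1)
      = H.index + 2 * ∑ q ∈ T, Nat.card (Places q H) := by
    rw [← finrank_range_add_finrank_ker_int v, hr, hker,
      ← (LinearEquiv.ofInjective ψ (unitsMap_injective (H := H) T)).finrank_eq, Units.finrank_eq,
      ← index_eq_finrank_fixField L hH, ← Ext.rank_of_totallyComplex (K := fixField H), hcard]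
    ring
  exact ⟨hfin, hrank⟩

variable {L : Level} {H P : Subgroup GQ}

/-- A totally complex field stays totally complex in extensions. -/
theorem isTotallyComplex_fixField (hPH : P ≤ H) (hc : IsTotallyComplex (fixField H)) :
    IsTotallyComplex (fixField P) := by
  have hle : fixField H ≤ fixField P := fun x hx => fun t => hx ⟨t, hPH t.2⟩
  refine ⟨fun v => ?_⟩
  rw [InfinitePlace.isComplex_iff]
  intro hreal
  have h := hc.isComplex (InfinitePlace.mk (v.embedding.comp (IntermediateField.inclusion hle).toRingHom))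
  rw [InfinitePlace.isComplex_mk_iff] at h
  exact h (ComplexEmbedding.IsReal.comp _ hreal)

theorem fixesMu_two : FixesMu 2 H := fun s _ z hz => by
  rcases sq_eq_one_iff.mp hz with rfl | rfl <;> simp

variable (c : CStep 2 L H P) {s : GQ} (hs : s ∈ H) (hsP : s ∉ P)
  (hc : IsTotallyComplex (fixField H))

include c hs hsP hc

/-- The Herbrand quotient of the `T`-units. -/
theorem hasHerbrand_sUnit_two (T : Finset Nat.Primes) :
    ∃ m n : ℕ, 2 * ((2 - 1) * (m : ℤ) - (2 - 1) * (n : ℤ)) + 2 * (2 - 1)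
        = 2 * (2 * (∑ q ∈ T, Nat.card (Places q H) : ℕ) - (∑ q ∈ T, Nat.card (Places q P) : ℕ)) ∧
      HasHerbrand (sigmaSub (subAct s _ (c.smul_mem_sUnitFix hs T)))
        (sigmaNorm (subAct s _ (c.smul_mem_sUnitFix hs T)) 2) (2 ^ m) (2 ^ n) := by
  obtain ⟨hfin, hrP⟩ := sUnit_rank L c.hLP (isTotallyComplex_fixField c.hP.le hc) T
  obtain ⟨-, hrH⟩ := sUnit_rank L c.hLH hc T
  set σ := subAct s _ (c.smul_mem_sUnitFix hs T)
  have : Module.Finite ℤ ↥(sUnit T ⊓ fixSub (A := QMul) P) := hfin
  obtain ⟨m, n, hmn, hh⟩ := hasHerbrand_of_fg Nat.prime_two σ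
    (fun a => c.iterate_subAct hs hsP _ _ inf_le_right a)
  refine ⟨m, n, ?_, hh⟩
  let e : (sigmaSub σ).ker ≃+ ↥(sUnit T ⊓ fixSub (A := QMul) H) :=
    { toFun := fun a => ⟨a.1.1, a.1.2.1, c.mem_fixSub_of_gen hs hsP a.1.2.2
        (sub_eq_zero.1 (congrArg Subtype.val a.2))⟩
      invFun := fun a => ⟨⟨a.1, a.2.1, fun t ht => a.2.2 t (c.hP.le ht)⟩,
        Subtype.ext (sub_eq_zero.2 (a.2.2 s hs))⟩
      left_inv := fun _ => rfl
      right_inv := fun _ => rfl
      map_add' := fun _ _ => rfl }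
  have r1 : finrank ℤ ↥(sigmaSub σ).ker.toIntSubmodule
      = finrank ℤ ↥(sUnit T ⊓ fixSub (A := QMul) H).toIntSubmodule :=
    e.toIntLinearEquiv.finrank_eq
  have r2 : finrank ℤ ↥(sUnit T ⊓ fixSub (A := QMul) P)
      = finrank ℤ ↥(sUnit T ⊓ fixSub (A := QMul) P).toIntSubmodule := rfl
  have hidx : P.index = 2 * H.index := by
    rw [← Subgroup.relIndex_mul_index c.hP.le, c.idx]
  rw [r1, r2] at hmn
  rw [hidx] at hrP
  have e1 := congrArg (Nat.cast : ℕ → ℤ) hrP
  have e2 := congrArg (Nat.cast : ℕ → ℤ) hrH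
  push_cast at e1 e2 hmn ⊢
  linear_combination 2 * hmn + ((2 : ℕ) : ℤ) * e2 - e1

/-- The first inequality: `#Ĥ⁰ = 2 · #H¹` for the idele classes. -/
theorem card_tate_cl_two :
    Finite (TateQuot (sigmaSub (subAct s _ (c.smul_mem_fixCl hs hsP)))
      (sigmaNorm (subAct s _ (c.smul_mem_fixCl hs hsP)) 2)) ∧
    Finite (TateQuot (sigmaNorm (subAct s _ (c.smul_mem_fixCl hs hsP)) 2)
      (sigmaSub (subAct s _ (c.smul_mem_fixCl hs hsP)))) ∧
    Nat.card (TateQuot (sigmaSub (subAct s _ (c.smul_mem_fixCl hs hsP)))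
      (sigmaNorm (subAct s _ (c.smul_mem_fixCl hs hsP)) 2))
      = 2 * Nat.card (TateQuot (sigmaNorm (subAct s _ (c.smul_mem_fixCl hs hsP)) 2)
          (sigmaSub (subAct s _ (c.smul_mem_fixCl hs hsP)))) := by
  classical
  obtain ⟨TP, hTP⟩ := exists_finset_classGroup L c.hLP
  set T : Finset Nat.Primes := (finite_ramified L).toFinset ∪ TP with hTdef
  have hT : ∀ q ∉ T, ∀ x ∈ semiUnit q ⊓ fixSub (A := Semi q) H,
      ∃ y ∈ semiUnit q ⊓ fixSub (A := Semi q) P, ∑ i ∈ Finset.range 2, s ^ i • y = x := by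
    intro q hq x hx
    have hu : L.UnrAt q := by_contra fun h => hq (Finset.mem_union_left _
      ((Set.Finite.mem_toFinset _).2 h))
    obtain ⟨y, hy, hyx⟩ := exists_normTo_semiUnit L q hu c.hLH hx
    have hz : normTo P L.grp y ∈ fixSub (A := Semi q) P :=
      normTo_mem_fixSub (L.lvl c.hLP) hy.2
    refine ⟨normTo P L.grp y, ⟨csum_mem (semiUnit q).toAddSubmonoid fun g _ =>
      smul_mem_semiUnit q hy.1 g, hz⟩, ?_⟩
    rw [← c.normTo_eq_sum hs hsP hz, normTo_tower (L.lvl c.hLH) c.hP.le c.hLP hy.2, hyx]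
  obtain ⟨m, n, hmn, hI⟩ := c.hasHerbrand_sIdele hs hsP T hT
  obtain ⟨m', n', hmn', hU⟩ := hasHerbrand_sUnit_two c hs hsP hc T
  let i : ↥(sUnit T ⊓ fixSub (A := QMul) P) →+ ↥(sIdele T ⊓ fixSub (A := Idele) P) :=
    (principal.comp (sUnit T ⊓ fixSub (A := QMul) P).subtype).codRestrict _ fun a =>
      ⟨a.2.1, principal_mem_fixSub a.2.2⟩
  let j : ↥(sIdele T ⊓ fixSub (A := Idele) P) →+ ↥(fixSub (A := Cl) P) :=
    (toCl.comp (sIdele T ⊓ fixSub (A := Idele) P).subtype).codRestrict _ fun a t ht => by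
      rw [AddMonoidHom.comp_apply, smul_toCl]
      exact congrArg toCl (a.2.2 t ht)
  have hi : Function.Injective i := fun a b h =>
    Subtype.ext (principal_injective (congrArg Subtype.val h))
  have hj : Function.Surjective j := by
    rintro ⟨x, hx⟩
    obtain ⟨y, hy, rfl⟩ := exists_fix_toCl_eq L c.hLP hx
    obtain ⟨a, ha, hya⟩ := hTP y hy
    refine ⟨⟨y - principal a, fun q hq => hya q fun h => hq
      (Finset.mem_union_right _ h),
      (fixSub (A := Idele) P).sub_mem hy (principal_mem_fixSub ha)⟩, Subtype.ext ?_⟩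
    show toCl (y - principal a) = toCl y
    rw [map_sub, toCl_eq_zero_iff.2 ⟨a, rfl⟩, sub_zero]
  have hex : Function.Exact i j := fun x => by
    constructor
    · intro hx
      obtain ⟨a, ha⟩ := toCl_eq_zero_iff.1 (congrArg Subtype.val hx)
      exact ⟨⟨a, show principal a ∈ sIdele T from ha.symm ▸ x.2.1,
        mem_fixSub_of_principal (ha.symm ▸ x.2.2)⟩, Subtype.ext ha⟩
    · rintro ⟨a, rfl⟩
      exact Subtype.ext (toCl_eq_zero_iff.2 ⟨a.1, rfl⟩)
  have hh := hasHerbrand_of_exact (subAct s _ (c.smul_mem_sUnitFix hs T))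
    (subAct s _ (c.smul_mem_sIdele hs T)) (subAct s _ (c.smul_mem_fixCl hs hsP))
    (fun a => c.iterate_subAct hs hsP _ _ inf_le_right a)
    (fun a => c.iterate_subAct hs hsP _ _ inf_le_right a)
    (fun a => c.iterate_subAct hs hsP _ _ le_rfl a) i j hi hj hex
    (fun a => Subtype.ext (principal_smul s a.1)) (fun a => Subtype.ext (smul_toCl s a.1).symm) hU hI
  obtain ⟨f0, f1, hcard⟩ := (hasHerbrand_iff (Nat.mul_ne_zero (pow_ne_zero _ Nat.prime_two.ne_zero)
    (pow_ne_zero _ Nat.prime_two.ne_zero))).1 hh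
  refine ⟨f0, f1, ?_⟩
  have key : m + n' = n + m' + 1 := by
    have h1 : (2 * (((2 : ℕ) : ℤ) - 1)) ≠ 0 := by
      have := Nat.prime_two.two_le
      omega
    have h2 : 2 * (((2 : ℕ) : ℤ) - 1) * ((m : ℤ) + n') = 2 * (((2 : ℕ) : ℤ) - 1) * ((n : ℤ) + m' + 1) := by
      linear_combination 2 * hmn - hmn'
    exact_mod_cast mul_left_cancel₀ h1 h2
  rw [← pow_add, ← pow_add, key, pow_succ, mul_assoc] at hcard
  exact (Nat.eq_of_mul_eq_mul_left (pow_pos Nat.prime_two.pos _) hcard).symm

end FLTAgent.LT.Recip
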