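import Fermat.Agent.Global.Duality.Tame
import Fermat.Agent.LT.Recip.Frobenius
import Fermat.Agent.Ext.SUnits

/-!
# Ideles attached to places
-/

set_option autoImplicit false
set_option linter.unusedSectionVars false
set_option synthInstance.maxHeartbeats 400000

open IsDedekindDomain NumberField
open scoped Pointwise

noncomputable section

namespace FLTAgent.LT.Recip

open FLTAgent.Global FLTAgent.TW FLTAgent.Frobenius

variable (E : IntermediateField ℚ Qb) [FiniteDimensional ℚ E]

/-- The place of `E` under the place `g` over `q`. -/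
def plOf (q : Nat.Primes) (g : GQ) : Ext.Place E :=
  placeIn E (g⁻¹ • padicPlace (q : ℕ)) q.2 (liesOverPrime_smul (liesOverPrime_padicPlace q) g⁻¹)

variable {E}

theorem mem_plOf {q : Nat.Primes} {g : GQ} {y : 𝓞 E} :
    y ∈ (plOf E q g).asIdeal ↔ ‖emb q (g ((y : E) : Qb))‖ < 1 := by
  show toZbar E y ∈ centre (g⁻¹ • padicPlace (q : ℕ)) ↔ _
  rw [centre_smul, Ideal.mem_pointwise_smul_iff_inv_smul_mem, inv_inv]
  exact norm_emb_lt_one_iff (q := q) _

theorem natCast_mem_plOf (q : Nat.Primes) (g : GQ) :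
    (((q : ℕ)) : 𝓞 E) ∈ (plOf E q g).asIdeal := natCast_mem_placeIn

theorem plOf_loc (q : Nat.Primes) (τ : Gq q) (g : GQ) : plOf E q (loc q τ * g) = plOf E q g :=
  HeightOneSpectrum.ext (Ideal.ext fun y => by
    rw [mem_plOf, mem_plOf, AlgEquiv.mul_apply, emb_loc, norm_gq])

theorem plOf_mul_fix (q : Nat.Primes) (g : GQ) {s : GQ} (hs : s ∈ E.fixingSubgroup) :
    plOf E q (g * s) = plOf E q g :=
  HeightOneSpectrum.ext (Ideal.ext fun y => by
    rw [mem_plOf, mem_plOf, AlgEquiv.mul_apply, apply_coe_eq_of_mem_fixing hs (y : E)])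

/-- The residue characteristic. -/
def resPrime (v : Ext.Place E) : Nat.Primes :=
  ⟨(exists_prime_mem v).choose, (exists_prime_mem v).choose_spec.1⟩

theorem resPrime_eq {v : Ext.Place E} {q : Nat.Primes} (h : (((q : ℕ)) : 𝓞 E) ∈ v.asIdeal) :
    resPrime v = q :=
  Subtype.ext (eq_of_natCast_mem (exists_prime_mem v).choose_spec.1 q.2 v
    (exists_prime_mem v).choose_spec.2 h)

theorem exists_plOf_eq (v : Ext.Place E) : ∃ g : GQ, plOf E (resPrime v) g = v := by
  obtain ⟨A, hA, he⟩ := exists_placeIn E v (resPrime v).2 (exists_prime_mem v).choose_spec.2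
  obtain ⟨τ, hτ⟩ := exists_smul_eq (resPrime v).2 hA (liesOverPrime_padicPlace (resPrime v))
  refine ⟨τ, HeightOneSpectrum.ext ?_⟩
  show centreIn E (τ⁻¹ • padicPlace (resPrime v : ℕ)) = v.asIdeal
  rw [← hτ, inv_smul_smul, ← he]
  rfl

/-- An element of order one at a place. -/
theorem exists_ord_one (v : Ext.Place E) : ∃ ρ : 𝓞 E, ρ ≠ 0 ∧ Ext.ord v (ρ : E) = 1 := by
  obtain ⟨ρ, hρ, hρ2⟩ := SetLike.exists_of_lt
    (Ideal.pow_right_strictAnti v.asIdeal v.ne_bot v.isPrime.ne_top (show 1 < 2 by norm_num))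
  have hρ0 : ρ ≠ 0 := fun h => hρ2 (h ▸ zero_mem _)
  refine ⟨ρ, hρ0, ?_⟩
  have h1 := (Ext.le_ord_iff_mem v hρ0 1).mpr hρ
  have h2 : ¬ ((2 : ℕ) : ℤ) ≤ Ext.ord v (ρ : E) := fun h => hρ2 ((Ext.le_ord_iff_mem v hρ0 2).mp h)
  push_cast at h1 h2
  omega

/-- A chosen element of order one. -/
def unif (v : Ext.Place E) : 𝓞 E := (exists_ord_one v).choose

theorem unif_ne_zero (v : Ext.Place E) : ((unif v : 𝓞 E) : E) ≠ 0 :=
  RingOfIntegers.coe_ne_zero_iff.mpr (exists_ord_one v).choose_spec.1

theorem ord_unif (v : Ext.Place E) : Ext.ord v (unif v : E) = 1 :=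
  (exists_ord_one v).choose_spec.2

theorem emb_ne_zero {y : E} (hy : y ≠ 0) (q : Nat.Primes) (g : GQ) :
    emb q (g (y : Qb)) ≠ 0 := by
  simpa using hy

theorem norm_emb_eq_one {q : Nat.Primes} {g : GQ} {y : 𝓞 E}
    (hy : y ∉ (plOf E q g).asIdeal) : ‖emb q (g ((y : E) : Qb))‖ = 1 :=
  le_antisymm (norm_emb_le_one_of_isIntegral (toZbar E y).2 q g)
    (not_lt.mp fun h => hy (mem_plOf.mpr h))

/-- The absolute value at a place is a power of that of an element of order one. -/
theorem norm_emb_eq_zpow {y : E} (hy : y ≠ 0) (q : Nat.Primes) (g : GQ) :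
    ‖emb q (g (y : Qb))‖ = ‖emb q (g ((unif (plOf E q g) : E) : Qb))‖ ^
      Ext.ord (plOf E q g) y := by
  set v := plOf E q g
  set n := Ext.ord v y
  set ρ : E := (unif v : E)
  have hρ : ρ ≠ 0 := unif_ne_zero v
  set z : E := y / ρ ^ n with hz
  have hz0 : z ≠ 0 := div_ne_zero hy (zpow_ne_zero _ hρ)
  have hoz : Ext.ord v z = 0 := by
    rw [hz, Ext.ord_div v hy (zpow_ne_zero _ hρ), Ext.ord_zpow, ord_unif, mul_one, sub_self]
  have hone : ‖emb q (g (z : Qb))‖ = 1 := by
    obtain ⟨a, ⟨d, hd⟩, h | h⟩ := HeightOneSpectrum.exists_primeCompl_mul_eq_or_mul_eq v z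
    · have hd0 : d ≠ 0 := fun h0 => hd (h0 ▸ zero_mem _)
      have ha0 : a ≠ 0 := fun h0 => by
        rw [h0, map_zero] at h
        exact mul_ne_zero hz0 (RingOfIntegers.coe_ne_zero_iff.mpr hd0) h
      have ha : a ∉ v.asIdeal := by
        rw [← Ext.ord_eq_zero_iff_notMem v ha0, show (a : E) = z * (d : E) from h.symm,
          Ext.ord_mul v hz0 (RingOfIntegers.coe_ne_zero_iff.mpr hd0), hoz,
          (Ext.ord_eq_zero_iff_notMem v hd0).mpr hd, add_zero]
      have h2 := congrArg (fun w : E => ‖emb q (g (w : Qb))‖) h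
      simp only [MulMemClass.coe_mul, map_mul, norm_mul] at h2
      rwa [show ((algebraMap (𝓞 E) E d : E) : Qb) = ((d : E) : Qb) from rfl,
        show ((algebraMap (𝓞 E) E a : E) : Qb) = ((a : E) : Qb) from rfl,
        norm_emb_eq_one ha, norm_emb_eq_one hd, mul_one] at h2
    · have hd0 : d ≠ 0 := fun h0 => hd (h0 ▸ zero_mem _)
      have ha0 : a ≠ 0 := fun h0 => by
        rw [h0, map_zero, mul_zero] at h
        exact RingOfIntegers.coe_ne_zero_iff.mpr hd0 h.symm
      have ha : a ∉ v.asIdeal := by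
        have h3 := congrArg (Ext.ord v) h
        rw [Ext.ord_mul v hz0 (RingOfIntegers.coe_ne_zero_iff.mpr ha0), hoz, zero_add,
          (Ext.ord_eq_zero_iff_notMem v hd0).mpr hd] at h3
        exact (Ext.ord_eq_zero_iff_notMem v ha0).mp h3
      have h2 := congrArg (fun w : E => ‖emb q (g (w : Qb))‖) h
      simp only [MulMemClass.coe_mul, map_mul, norm_mul] at h2
      rwa [show ((algebraMap (𝓞 E) E d : E) : Qb) = ((d : E) : Qb) from rfl,
        show ((algebraMap (𝓞 E) E a : E) : Qb) = ((a : E) : Qb) from rfl,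
        norm_emb_eq_one ha, norm_emb_eq_one hd, mul_one] at h2
  have hyz : y = z * ρ ^ n := by rw [hz, div_mul_cancel₀ _ (zpow_ne_zero _ hρ)]
  conv_lhs => rw [hyz]
  rw [MulMemClass.coe_mul, map_mul, map_mul, norm_mul, hone, one_mul,
    show ((ρ ^ n : E) : Qb) = (ρ : Qb) ^ n from map_zpow₀ E.val ρ n, map_zpow₀, map_zpow₀,
    norm_zpow]

/-- A nonzero element of `E` as a fixed element of the multiplicative group. -/
def qOf (y : E) (hy : y ≠ 0) : QMul := toQMul (y : Qb) (by simpa using hy)

theorem qOf_mem_fixSub (y : E) (hy : y ≠ 0) :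
    qOf y hy ∈ fixSub (A := QMul) E.fixingSubgroup :=
  mem_fixSub_qmul.2 fun s => apply_coe_eq_of_mem_fixing s.2 y

open scoped Classical in
/-- The component at the place `v` of a chosen element of order one at `v`, and `1` at the other
places over `q`. -/
def placeSemi (v : Ext.Place E) (q : Nat.Primes) : Semi q :=
  ⟨fun g => if plOf E q g = v then
      (comp q (principal (qOf (unif v : E) (unif_ne_zero v)))).1 g else 0,
    fun τ g => by
      simp only [plOf_loc]
      split_ifs with h
      · exact (comp q (principal (qOf (unif v : E) (unif_ne_zero v)))).2.1 τ g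
      · simp,
    by
      obtain ⟨L, hL⟩ := exists_level E
      refine ⟨L, fun g s hs => ?_⟩
      have hsE : s ∈ E.fixingSubgroup := IntermediateField.fixingSubgroup_antitone hL hs
      simp only [plOf_mul_fix q g hsE]
      split_ifs with h
      · exact congrArg Additive.ofMul (Units.ext (congrArg (fun t => emb q (g t))
          (apply_coe_eq_of_mem_fixing hsE (unif v : E))))
      · rfl⟩

open scoped Classical in
theorem sval_placeSemi (v : Ext.Place E) (q : Nat.Primes) (g : GQ) :
    sval (placeSemi v q) g =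
      if plOf E q g = v then emb q (g ((unif v : E) : Qb)) else 1 := by
  unfold placeSemi sval
  simp only
  split_ifs <;> rfl

theorem placeSemi_mem_fixSub (v : Ext.Place E) (q : Nat.Primes) :
    placeSemi v q ∈ fixSub (A := Semi q) E.fixingSubgroup := fun s hs => semi_ext fun g => by
  classical
  rw [sval_smul, sval_placeSemi, sval_placeSemi, plOf_mul_fix q g hs, AlgEquiv.mul_apply,
    apply_coe_eq_of_mem_fixing hs (unif v : E)]

/-- The idele of a place. -/
def placeIdele (v : Ext.Place E) : Idele := single (resPrime v) (placeSemi v (resPrime v))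

theorem placeIdele_mem_fixSub (v : Ext.Place E) :
    placeIdele v ∈ fixSub (A := Idele) E.fixingSubgroup := fun s hs => by
  rw [placeIdele, ← single_smul, placeSemi_mem_fixSub v _ s hs]

open scoped Classical in
theorem sval_placeIdele (v : Ext.Place E) (q : Nat.Primes) (g : GQ) :
    sval (comp q (placeIdele v)) g =
      if plOf E q g = v then emb q (g ((unif v : E) : Qb)) else 1 := by
  rcases eq_or_ne q (resPrime v) with rfl | hne
  · rw [placeIdele, comp_single, sval_placeSemi]
  · rw [placeIdele, comp_single_ne hne, sval_zero, if_neg]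
    intro h
    exact hne (resPrime_eq (v := v) (by rw [← h]; exact natCast_mem_plOf q g)).symm

theorem sval_zsmul {q : Nat.Primes} (x : Semi q) (n : ℤ) (g : GQ) :
    sval (n • x) g = sval x g ^ n := by
  show ((Additive.toMul ((n • x : Semi q).1 g) : (Kq q)ˣ) : Kq q) = _
  rw [show (n • x : Semi q).1 g = n • x.1 g from rfl, toMul_zsmul, Units.val_zpow_eq_zpow_val]
  rfl

/-- The idele of a divisor. -/
def divIdele (f : Ext.Place E →₀ ℤ) : Idele := f.sum fun v n => n • placeIdele v

theorem divIdele_mem_fixSub (f : Ext.Place E →₀ ℤ) :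
    divIdele f ∈ fixSub (A := Idele) E.fixingSubgroup :=
  sum_mem fun v _ => zsmul_mem (placeIdele_mem_fixSub v) _

theorem sval_divIdele (f : Ext.Place E →₀ ℤ) (q : Nat.Primes) (g : GQ) :
    sval (comp q (divIdele f)) g =
      emb q (g ((unif (plOf E q g) : E) : Qb)) ^ f (plOf E q g) := by
  classical
  induction f using Finsupp.induction with
  | zero => simp [divIdele]
  | single_add a b f _ _ ih =>
    rw [divIdele, Finsupp.sum_add_index' (h := fun v (n : ℤ) => n • placeIdele v)
        (fun v => zero_zsmul _) (fun v m n => add_zsmul _ m n),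
      Finsupp.sum_single_index (zero_zsmul _), map_add, sval_add, map_zsmul, sval_zsmul,
      sval_placeIdele, ← divIdele, ih, Finsupp.add_apply, Finsupp.single_apply]
    rw [zpow_add₀ (emb_ne_zero (unif_ne_zero _) q g)]
    congr 1
    by_cases h : plOf E q g = a
    · subst h; rw [if_pos rfl, if_pos rfl]
    · rw [if_neg h, if_neg (Ne.symm h), one_zpow, zpow_zero]

end FLTAgent.LT.Recip
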