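import Fermat.Agent.LT.Recip.Layer.Norms
import Fermat.Agent.LT.Recip.Layer.PlaceIdele
import Fermat.Agent.TW.RayOfPlaces

/-!
# The ray character with values in idele classes modulo norms
-/

set_option autoImplicit false
set_option linter.unusedSectionVars false
set_option synthInstance.maxHeartbeats 400000

open IsDedekindDomain NumberField
open scoped Pointwise

noncomputable section

namespace FLTAgent.LT.Recip

open FLTAgent.Global FLTAgent.TW FLTAgent.Frobenius

variable {E : IntermediateField ℚ Qb} [FiniteDimensional ℚ E] {P : Subgroup GQ} {L : Level}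
  (hP : Lvl E.fixingSubgroup P) (hLP : L.grp ≤ P)

local notation "HE" => E.fixingSubgroup

/-- The class of a place. -/
def placeCls (E : IntermediateField ℚ Qb) [FiniteDimensional ℚ E] (P : Subgroup GQ)
    (v : Ext.Place E) : NormQuot E.fixingSubgroup P :=
  clMap _ P ⟨placeIdele v, placeIdele_mem_fixSub v⟩

theorem sum_placeCls (f : Ext.Place E →₀ ℤ) :
    (f.sum fun v n => n • placeCls E P v)
      = clMap HE P ⟨divIdele f, divIdele_mem_fixSub f⟩ := by
  have : (⟨divIdele f, divIdele_mem_fixSub f⟩ : ↥(fixSub (A := Idele) HE))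
      = f.sum fun v n => n • ⟨placeIdele v, placeIdele_mem_fixSub v⟩ := Subtype.ext (by
    rw [Finsupp.sum, AddSubgroup.val_finsetSum]
    rfl)
  rw [this, map_finsuppSum]
  exact Finset.sum_congr rfl fun v _ => (map_zsmul _ _ _).symm

theorem sval_divIdele_of_zero {f : Ext.Place E →₀ ℤ} {q : Nat.Primes}
    (h : ∀ g, f (plOf E q g) = 0) : comp q (divIdele f) = 0 :=
  semi_ext fun g => by rw [sval_divIdele, h g, zpow_zero, sval_zero]

theorem norm_sval_divIdele {f : Ext.Place E →₀ ℤ} {y : E} (hy : y ≠ 0) {q : Nat.Primes}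
    (h : ∀ g, f (plOf E q g) = Ext.ord (plOf E q g) y) (g : GQ) :
    ‖sval (comp q (divIdele f)) g‖ = ‖sval (comp q (principal (qOf y hy))) g‖ := by
  rw [sval_divIdele, norm_zpow, h g, sval_principal]
  exact (norm_emb_eq_zpow hy q g).symm

theorem sub_mem_semiUnit {q : Nat.Primes} {x y : Semi q} (h : ∀ g, ‖sval x g‖ = ‖sval y g‖) :
    x - y ∈ semiUnit q := fun g => by
  rw [sub_eq_add_neg, sval_add, sval_neg, norm_mul, norm_inv, h g,
    mul_inv_cancel₀ (norm_ne_zero_iff.mpr (sval_ne_zero y g))]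

theorem emb_intCast_mul {y : 𝓞 E} {k : ℕ} {t : 𝓞 E} (h : y - 1 = t * k) (q : Nat.Primes) (g : GQ) :
    ‖emb q (g ((y : E) : Qb)) - 1‖ ≤ ‖(k : Kq q)‖ := by
  have h1 : ((y : E) : Qb) - 1 = ((t : E) : Qb) * k := by
    have h2 := congrArg (fun w : 𝓞 E => ((w : E) : Qb)) h
    simpa using h2
  have h3 := congrArg (fun w => emb q (g w)) h1
  simp only [map_sub, map_one, map_mul, map_natCast] at h3
  rw [h3, norm_mul]
  exact mul_le_of_le_one_left (norm_nonneg _)
    (norm_emb_le_one_of_isIntegral (toZbar E t).2 q g)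

include hP hLP

omit hP hLP in
theorem natCast_mem_plOf_of_dvd {N : ℕ} {q : Nat.Primes} (h : (q : ℕ) ∣ N) (g : GQ) :
    (N : 𝓞 E) ∈ (plOf E q g).asIdeal := by
  obtain ⟨k, hk⟩ := h
  rw [hk, Nat.cast_mul]
  exact Ideal.mul_mem_right _ _ (natCast_mem_plOf q g)

/-- The divisor of an element congruent to `1` modulo a suitable integer gives a norm class. -/
theorem sum_placeCls_ray (S : Finset Nat.Primes) (hS : ∀ q ∉ S, L.UnrAt q) (ε : Nat.Primes → ℝ)
    (hnear : ∀ q, ∀ x ∈ fixSub (A := Semi q) HE, (∀ g, ‖sval x g - 1‖ ≤ ε q) →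
      ∃ y ∈ semiUnit q ⊓ fixSub (A := Semi q) HE, P.relIndex HE • y = x)
    (e : Nat.Primes → ℕ) (he : ∀ q, qinv q ^ e q < ε q) {N : ℕ}
    (hdvd : ∀ q ∈ S, (q : ℕ) ^ (e q + 1) ∣ N) (x : (E : Type)ˣ) {y : 𝓞 E} (hxy : (x : E) = y)
    (hy : y - 1 ∈ Ideal.span {(N : 𝓞 E)}) :
    ((divisor x).sum fun v n => n • placeCls E P v) = 0 := by
  have hmemS : ∀ (q : Nat.Primes) (g : GQ), q ∈ S → ((N : ℕ) : 𝓞 E) ∈ (plOf E q g).asIdeal :=
    fun q g hq => natCast_mem_plOf_of_dvd
      ((dvd_pow_self _ (Nat.succ_ne_zero _)).trans (hdvd q hq)) g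
  rw [sum_placeCls, clMap_eq_zero]
  have hx0 : (x : E) ≠ 0 := x.ne_zero
  have hy0 : y ≠ 0 := fun h => hx0 (by rw [hxy, h]; rfl)
  set a := qOf (x : E) hx0
  have hzero : ∀ q ∈ S, ∀ g, divisor x (plOf E q g) = 0 := fun q hq g => by
    rw [divisor_apply, hxy, Ext.ord_eq_zero_iff_notMem _ hy0]
    intro hym
    have h1 := sub_mem hym ((Ideal.span_singleton_le_iff_mem _).mpr (hmemS q g hq) hy)
    exact (plOf E q g).isPrime.ne_top ((Ideal.eq_top_iff_one _).mpr (by simpa using h1))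
  set z := divIdele (divisor x) - principal a with hz
  have hzfix : z ∈ fixSub (A := Idele) HE :=
    sub_mem (divIdele_mem_fixSub _) (principal_mem_fixSub (qOf_mem_fixSub _ hx0))
  have hcls : toCl (divIdele (divisor x)) = toCl z := by
    rw [hz, map_sub, toCl_eq_zero_iff.mpr ⟨a, rfl⟩, sub_zero]
  show toCl (divIdele (divisor x)) ∈ normSub _ _
  rw [hcls]
  refine toCl_mem_normSub_of_units hP hLP hzfix fun q => ?_
  by_cases hq : q ∈ S
  · refine Or.inr ?_
    have hclose : ∀ g, ‖sval (comp q (principal a)) g - 1‖ ≤ ε q := fun g => by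
      obtain ⟨t, ht⟩ := Ideal.mem_span_singleton'.mp hy
      obtain ⟨k, hk⟩ := hdvd q hq
      rw [sval_principal, show qval a = ((y : E) : Qb) by
        show (((x : E)) : Qb) = _; rw [hxy]]
      refine (emb_intCast_mul ht.symm q g).trans ?_
      rw [hk, Nat.cast_mul, Nat.cast_pow, norm_mul, norm_pow, norm_prime_kq]
      refine (mul_le_of_le_one_right (by positivity)
        (IsUltrametricDist.norm_natCast_le_one _ _)).trans ?_
      exact (qinv_pow_mono q (Nat.le_succ _)).trans (he q).le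
    obtain ⟨w, hw, hwe⟩ := hnear q (comp q (principal a))
      (comp_mem_fixSub (principal_mem_fixSub (qOf_mem_fixSub _ hx0)) q) hclose
    refine ⟨-w, neg_mem hw, ?_⟩
    rw [neg_nsmul, hwe, hz, map_sub, sval_divIdele_of_zero (hzero q hq), zero_sub]
  · refine Or.inl ⟨hS q hq, ?_⟩
    rw [hz, map_sub]
    exact sub_mem_semiUnit (norm_sval_divIdele hx0 fun g => rfl)

/-- Every class is that of a divisor supported outside `S`. -/
theorem exists_sum_placeCls (S : Finset Nat.Primes) (hS : ∀ q ∉ S, L.UnrAt q)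
    (c : NormQuot HE P) :
    ∃ f : Ext.Place E →₀ ℤ, (∀ v ∈ f.support, resPrime v ∉ S) ∧
      (f.sum fun v n => n • placeCls E P v) = c := by
  have hn : P.relIndex HE ≠ 0 := by
    have := hP.fin
    exact Subgroup.index_ne_zero_of_finite
  obtain ⟨⟨x, hx⟩, rfl⟩ := clMap_surjective (P := P) L (hLP.trans hP.le) c
  classical
  obtain ⟨a, ha, hya⟩ := exists_principal_approx L (hLP.trans hP.le) (P.relIndex HE) hn S hx
  set x₁ := x - principal a with hx₁
  have hx₁H : x₁ ∈ fixSub (A := Idele) HE := sub_mem hx (principal_mem_fixSub ha)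
  set T := x₁.2.2.toFinset with hT
  have hTS : ∀ q ∈ T, q ∉ S := fun q hqT hqS => by
    obtain ⟨y, hy, hye⟩ := hya q hqS
    refine (Set.Finite.mem_toFinset _).mp hqT ?_
    show comp q x₁ ∈ semiUnit q
    rw [hye]
    exact nsmul_mem hy.1 _
  obtain ⟨b, hb, hyb⟩ := exists_principal_approx L (hLP.trans hP.le) 1 one_ne_zero T hx₁H
  have hbE : qval b ∈ E := mem_of_forall_fixed E fun s hs => congrArg qval (hb s hs)
  set β : E := ⟨qval b, hbE⟩ with hβdef
  have hβ : β ≠ 0 := fun h => qval_ne_zero b (congrArg Subtype.val h)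
  set f : Ext.Place E →₀ ℤ :=
    (divisor (Units.mk0 β hβ)).filter fun v => resPrime v ∈ T with hf
  have hf0 : ∀ q ∉ T, ∀ g, f (plOf E q g) = 0 := fun q hq g =>
    Finsupp.filter_apply_neg _ _ (by rw [resPrime_eq (natCast_mem_plOf q g)]; exact hq)
  have hf1 : ∀ q ∈ T, ∀ g, f (plOf E q g) = Ext.ord (plOf E q g) β := fun q hq g => by
    rw [hf, Finsupp.filter_apply_pos _ _ (by rw [resPrime_eq (natCast_mem_plOf q g)]; exact hq)]
    rfl
  have hD : clMap HE P ⟨x, hx⟩ = clMap HE P ⟨divIdele f, divIdele_mem_fixSub f⟩ := by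
    rw [← sub_eq_zero, ← map_sub, clMap_eq_zero]
    show toCl (x - divIdele f) ∈ normSub _ _
    have hcls : toCl (x - divIdele f) = toCl (x₁ - divIdele f) := by
      rw [hx₁, map_sub, map_sub, map_sub, toCl_eq_zero_iff.mpr ⟨a, rfl⟩, sub_zero]
    rw [hcls]
    refine toCl_mem_normSub_of_units hP hLP (sub_mem hx₁H (divIdele_mem_fixSub f)) fun q => ?_
    by_cases hq : q ∈ S
    · refine Or.inr ?_
      obtain ⟨y, hy, hye⟩ := hya q hq
      exact ⟨y, hy, by
        rw [map_sub, sval_divIdele_of_zero (hf0 q fun h => hTS q h hq), sub_zero]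
        exact hye.symm⟩
    · refine Or.inl ⟨hS q hq, ?_⟩
      rw [map_sub]
      by_cases hqT : q ∈ T
      · refine sub_mem_semiUnit fun g => ?_
        rw [norm_sval_divIdele hβ (hf1 q hqT)]
        obtain ⟨y, hy, hye⟩ := hyb q hqT
        rw [map_sub, one_nsmul, sub_eq_iff_eq_add] at hye
        rw [hye, sval_add, norm_mul, hy.1 g, one_mul]
        rfl
      · rw [sval_divIdele_of_zero (hf0 q hqT), sub_zero]
        exact by_contra fun h => hqT ((Set.Finite.mem_toFinset _).mpr h)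
  refine ⟨f, fun v hv => ?_, ?_⟩
  · rw [Finsupp.support_filter, Finset.mem_filter] at hv
    exact hTS _ hv.2
  · rw [sum_placeCls]
    exact hD.symm

/-- The ray character of the classes modulo norms. -/
theorem exists_rayHom_normQuot (S : Finset Nat.Primes) (hS : ∀ q ∉ S, L.UnrAt q) :
    ∃ (N : ℕ) (χ : RayHom (Ideal.span {(N : 𝓞 E)}) (NormQuot HE P)), N ≠ 0 ∧
      (∀ q ∈ S, (q : ℕ) ∣ N) ∧ (∀ l : ℕ, l.Prime → l ∣ N → ∃ q ∈ S, (q : ℕ) = l) ∧
      χ.values = ⊤ ∧
      ∀ v, IsCoprime v.asIdeal (Ideal.span {(N : 𝓞 E)}) → χ.toFun v.asIdeal = placeCls E P v := by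
  classical
  have hn : P.relIndex HE ≠ 0 := by
    have := hP.fin
    exact Subgroup.index_ne_zero_of_finite
  choose ε hε hnear using fun q => exists_near_nsmul L (hLP.trans hP.le) q hn
  choose e he using fun q : Nat.Primes => exists_qinv_pow_lt q (hε q)
  set N : ℕ := ∏ q ∈ S, (q : ℕ) ^ (e q + 1) with hN
  have hN0 : N ≠ 0 := Finset.prod_ne_zero_iff.mpr fun q _ => pow_ne_zero _ q.2.ne_zero
  have hdvd : ∀ q ∈ S, (q : ℕ) ^ (e q + 1) ∣ N := fun q hq => Finset.dvd_prod_of_mem _ hq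
  have hqN : ∀ q ∈ S, (q : ℕ) ∣ N := fun q hq => (dvd_pow_self _ (Nat.succ_ne_zero _)).trans
    (hdvd q hq)
  have hsupp : ∀ l : ℕ, l.Prime → l ∣ N → ∃ q ∈ S, (q : ℕ) = l := fun l hl hd => by
    obtain ⟨q, hq, hd'⟩ := (hl.prime.dvd_finsetProd_iff _).mp hd
    exact ⟨q, hq, ((Nat.prime_dvd_prime_iff_eq hl q.2).mp (hl.dvd_of_dvd_pow hd')).symm⟩
  set χ := rayHomOfPlaces (Ideal.span {(N : 𝓞 E)}) (placeCls E P) fun x hx =>
    let ⟨_, hxy, hy⟩ := hx
    sum_placeCls_ray hP hLP S hS ε hnear e he hdvd x hxy hy with hχ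
  have hval : ∀ v : Ext.Place E, IsCoprime v.asIdeal (Ideal.span {(N : 𝓞 E)}) →
      χ.toFun v.asIdeal = placeCls E P v := fun v hv => rayHomOfPlaces_asIdeal _ _ _ v hv
  refine ⟨N, χ, hN0, hqN, hsupp, ?_, hval⟩
  refine eq_top_iff.mpr fun c _ => ?_
  obtain ⟨f, hf, rfl⟩ := exists_sum_placeCls hP hLP S hS c
  refine sum_mem fun v hv => zsmul_mem (K := χ.values)
    (AddSubgroup.subset_closure (k := Set.range χ.toFun) ⟨v.asIdeal, hval v ?_⟩) _
  by_contra hco
  have hle := (not_isCoprime_iff_le _ v).mp hco (Ideal.mem_span_singleton_self _)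
  rw [hN, Nat.cast_prod] at hle
  obtain ⟨q, hq, hqv⟩ := v.isPrime.prod_mem_iff.mp hle
  rw [Nat.cast_pow] at hqv
  exact hf v hv (resPrime_eq (v.isPrime.mem_of_pow_mem _ hqv) ▸ hq)

/-- Places with a Frobenius element fixing the upper field give norms. -/
theorem placeCls_eq_zero {A : ValuationSubring Qb} {l : ℕ} (hl : l.Prime) (hA : A.LiesOverPrime l)
    (hu : L.UnrAt ⟨l, hl⟩) {φ : GQ} (hφ : φ ∈ P)
    (hφA : A.IsFrobeniusAt φ (Nat.card (𝓞 E ⧸ (placeIn E A hl hA).asIdeal))) :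
    placeCls E P (placeIn E A hl hA) = 0 := by
  classical
  set v := placeIn E A hl hA with hv
  set q : Nat.Primes := ⟨l, hl⟩ with hqdef
  have : Fact (Nat.Prime (q : ℕ)) := ⟨hl⟩
  have hqv : resPrime v = q := resPrime_eq natCast_mem_placeIn
  obtain ⟨τ, hτ⟩ := exists_smul_eq hl hA (liesOverPrime_padicPlace q)
  have hA' : A = τ⁻¹ • padicPlace (q : ℕ) := by rw [← hτ, inv_smul_smul]
  have hpl : plOf E q τ = v := HeightOneSpectrum.ext (by
    show centreIn E (τ⁻¹ • padicPlace (q : ℕ)) = centreIn E A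
    rw [← hA'])
  rw [placeCls, clMap_eq_zero]
  refine toCl_mem_normSub hP hLP {q} fun r => ?_
  by_cases hr : r = q
  swap
  · refine ⟨0, zero_mem _, ?_, fun _ => zero_mem _⟩
    rw [← normHom_apply hP, map_zero]
    exact (comp_single_ne (hqv ▸ hr) _).symm
  subst hr
  set x := placeSemi v q with hx
  refine ⟨onPlace L hLP (DoubleCoset.mk (dec q) P τ) x,
    onPlace_mem_fixSub L hLP le_rfl _ fun t ht => placeSemi_mem_fixSub v q t (hP.le ht), ?_,
    fun h => absurd (Finset.mem_singleton_self _) h⟩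
  have hcomp : comp q (placeIdele v) = x := semi_ext fun g => by
    rw [sval_placeIdele, hx, sval_placeSemi]
  show normTo _ P _ = comp q (placeIdele v)
  rw [hcomp]
  -- an element of `H` keeping the place is in `P`
  have key : ∀ t ∈ HE, DoubleCoset.mk (dec q) P (τ * t) = DoubleCoset.mk (dec q) P τ → t ∈ P := by
    intro t ht h
    obtain ⟨d, ⟨ρ, rfl⟩, p, hp, he⟩ := (DoubleCoset.eq _ _ _ _).1 h
    have hd : t * p = τ⁻¹ * (loc q ρ)⁻¹ * τ := by
      rw [eq_comm, mul_assoc, inv_mul_eq_iff_eq_mul, inv_mul_eq_iff_eq_mul]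
      exact he.trans (by group)
    have hdec : t * p ∈ A.decompositionSubgroup ℚ := by
      rw [hd]
      refine MulAction.mem_stabilizer_iff.mpr ?_
      rw [hA', mul_smul, mul_smul, smul_inv_smul, MulAction.mem_stabilizer_iff.mp
        (inv_mem (localGaloisToGlobal_mem_decompositionSubgroup (q : ℕ) ρ))]
    have := L.fin
    have := L.gal
    have hEL : E ≤ L.fld := fun y hy => by
      rw [← InfiniteGalois.fixedField_fixingSubgroup L.fld]
      exact fun s => apply_eq_of_mem_fixing (hP.le (hLP s.2)) hy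
    obtain ⟨m, ι, hι, -, hdι⟩ :=
      exists_pow_mul_inertia hl hA hφA (hP.le hφ) L.fld hEL hdec (mul_mem ht (hP.le hp))
    have hL : (φ ^ m * ι)⁻¹ * (t * p) ∈ L.grp :=
      (IntermediateField.mem_fixingSubgroup_iff _ _).mpr fun y hy => by
        rw [AlgEquiv.mul_apply, hdι y hy, ← AlgEquiv.mul_apply, inv_mul_cancel]
        rfl
    have hιL : ι ∈ L.grp := hu A hA hι
    have htp : t * p ∈ P := by
      have h2 := mul_mem (mul_mem (pow_mem hφ m) (hLP hιL)) (hLP hL)
      rwa [mul_inv_cancel_left] at h2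
    simpa using mul_mem htp (inv_mem hp)
  have := hP.fin
  have := Fintype.ofFinite (↥HE ⧸ P.subgroupOf HE)
  refine semi_ext fun h => ?_
  rw [normTo, csum_eq_sum, sval_sum]
  simp only [sval_smul]
  have hfix : ∀ t ∈ HE, sval x (h * t) = sval x h := fun t ht =>
    sval_mul_right (placeSemi_mem_fixSub v q) h ht
  have hmkP : ∀ (g p : GQ), p ∈ P → DoubleCoset.mk (dec q) P (g * p) = DoubleCoset.mk (dec q) P g :=
    fun g p hp => (DoubleCoset.eq _ _ _ _).2 ⟨1, one_mem _, p⁻¹, inv_mem hp, by simp⟩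
  have hplP : ∀ t : GQ, DoubleCoset.mk (dec q) P (h * t) = DoubleCoset.mk (dec q) P τ → t ∈ HE →
      plOf E q h = v := fun t he ht => by
    obtain ⟨d, ⟨ρ, rfl⟩, p, hp, e⟩ := (DoubleCoset.eq _ _ _ _).1 he
    rw [← plOf_mul_fix q h ht, ← hpl, e, plOf_mul_fix q _ (hP.le hp), plOf_loc]
  by_cases hhv : plOf E q h = v
  · obtain ⟨c, hc, hcA⟩ := exists_fix_smul_eq E (A := h⁻¹ • padicPlace (q : ℕ)) (B := A)
      (congrArg HeightOneSpectrum.asIdeal hhv)
    have hst : (τ * c * h⁻¹) • padicPlace (q : ℕ) = padicPlace (q : ℕ) := by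
      rw [mul_smul, mul_smul, hcA, hτ]
    have hnorm := L.grp_normal
    obtain ⟨d, hd, s, hs, hds⟩ : ∃ d ∈ dec q, ∃ s ∈ L.grp, d * s = τ * c * h⁻¹ := by
      have hmem : τ * c * h⁻¹ ∈ dec q ⊔ L.grp := mem_dec_sup_of_decomposition hst
      exact Subgroup.mem_sup_of_normal_right.mp hmem
    have hmk : DoubleCoset.mk (dec q) P (h * c⁻¹) = DoubleCoset.mk (dec q) P τ := by
      refine (DoubleCoset.eq _ _ _ _).2 ⟨d, hd, c * h⁻¹ * (s * (h * c⁻¹)),
        hLP ?_, ?_⟩
      · have h3 := hnorm.conj_mem _ hs (c * h⁻¹)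
        rw [mul_inv_rev, inv_inv] at h3
        rw [show c * h⁻¹ * (s * (h * c⁻¹)) = c * h⁻¹ * s * (h * c⁻¹) by group]
        exact h3
      · rw [show d * (h * c⁻¹) * (c * h⁻¹ * (s * (h * c⁻¹))) = (d * s) * (h * c⁻¹) by group, hds]
        group
    rw [Finset.prod_eq_single (QuotientGroup.mk (⟨c⁻¹, inv_mem hc⟩ : ↥HE))]
    · set t := rep HE P (QuotientGroup.mk (⟨c⁻¹, inv_mem hc⟩ : ↥HE)) with ht
      have hq : c * t ∈ P := by
        have h4 := QuotientGroup.eq.1
          (QuotientGroup.out_eq' (QuotientGroup.mk (⟨c⁻¹, inv_mem hc⟩ : ↥HE) :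
            ↥HE ⧸ P.subgroupOf HE)).symm
        rw [Subgroup.mem_subgroupOf] at h4
        simpa [ht, rep] using h4
      rw [sval_onPlace_eq L hLP (by
        rw [show h * t = h * c⁻¹ * (c * t) by group, hmkP _ _ hq, hmk]), hfix _ (rep_mem _ _ _)]
    · intro z _ hz
      refine sval_onPlace_ne L hLP (fun he => hz ?_) _
      have hcz : c * rep HE P z ∈ P := by
        refine key _ (mul_mem hc (rep_mem _ _ _)) ?_
        obtain ⟨d', hd', p', hp', e⟩ := (DoubleCoset.eq _ _ _ _).1 hmk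
        rw [← he]
        refine (DoubleCoset.eq _ _ _ _).2 ⟨d'⁻¹, inv_mem hd', (c * rep HE P z)⁻¹ * p'⁻¹ *
          (c * rep HE P z), hP.conj _ (mul_mem hc (rep_mem _ _ _)) _ (inv_mem hp'), ?_⟩
        rw [e]
        group
      rw [← QuotientGroup.out_eq' z, eq_comm, QuotientGroup.eq, Subgroup.mem_subgroupOf]
      simpa [rep] using hcz
    · simp
  · rw [hx, sval_placeSemi, if_neg hhv]
    refine Finset.prod_eq_one fun z _ => sval_onPlace_ne L hLP (fun he => hhv ?_) _
    exact hplP _ he (rep_mem _ _ _)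

end FLTAgent.LT.Recip
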