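import Fermat.Agent.LT.Recip.SplitField
import Fermat.Agent.LT.Recip.Layer.FirstTwo
import Fermat.Agent.LT.Recip.Layer.RayV

/-!
# The norm index of layers of degree two and four
-/

set_option autoImplicit false
set_option linter.unusedSectionVars false
set_option synthInstance.maxHeartbeats 400000

open IsDedekindDomain NumberField
open scoped Pointwise

noncomputable section

namespace FLTAgent.LT.Recip

open FLTAgent.Global FLTAgent.TW FLTAgent.Frobenius
open FLTAgent.TW.NormChar (isDegreeOne_of_frobenius_mem absNorm_eq_of_isDegreeOne)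

local instance : IsGalois ℚ Qb := qb_isGalois
local instance : Fact (Nat.Prime 2) := ⟨Nat.prime_two⟩

variable {E : IntermediateField ℚ Qb} [FiniteDimensional ℚ E] {G : Type} [CommGroup G] [Finite G]
  {P : Subgroup GQ} (π : E.fixingSubgroup →* G)

/-- A subgroup cut out by a character, containing a level. -/
structure IsKerLayer (P : Subgroup GQ) (L : Level) : Prop where
  le : P ≤ E.fixingSubgroup
  mem_iff : ∀ g : E.fixingSubgroup, π g = 1 ↔ (g : GQ) ∈ P
  lvl_le : L.grp ≤ P

variable {π} {L : Level}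

theorem IsKerLayer.lvl (K : IsKerLayer π P L) : Lvl E.fixingSubgroup P where
  le := K.le
  conj g hg s hs := by
    have h := (K.mem_iff ⟨s, K.le hs⟩).mpr hs
    let γ : E.fixingSubgroup := ⟨g, hg⟩
    let x : E.fixingSubgroup := ⟨s, K.le hs⟩
    have h2 : π (γ⁻¹ * x * γ) = 1 := by
      rw [_root_.map_mul, _root_.map_mul, _root_.map_inv, h, mul_one, inv_mul_cancel]
    exact (K.mem_iff (γ⁻¹ * x * γ)).mp h2
  fin := by
    have h : P.subgroupOf E.fixingSubgroup = π.ker := by
      ext g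
      exact (K.mem_iff g).symm
    rw [h]
    exact Finite.of_equiv π.range (QuotientGroup.quotientKerEquivRange π).symm.toEquiv

theorem IsKerLayer.relIndex_eq (K : IsKerLayer π P L) (hπ : Function.Surjective π) :
    P.relIndex E.fixingSubgroup = Nat.card G := by
  have h : P.subgroupOf E.fixingSubgroup = π.ker := by
    ext g
    exact (K.mem_iff g).symm
  rw [Subgroup.relIndex, h, Subgroup.index_ker, MonoidHom.range_eq_top.mpr hπ, Subgroup.card_top]

/-- The ray character, its generating value and its values at primes of degree one. -/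
theorem IsKerLayer.exists_gen (K : IsKerLayer π P L) [Finite (NormQuot E.fixingSubgroup P)]
    (k : ℕ) (hG : ∀ x : G, x ^ 2 ^ (k + 1) = 1) (σ₀ : E.fixingSubgroup)
    (hgen : ∀ g, ∃ a : ℕ, π g = π σ₀ ^ a) :
    ∃ (N : ℕ) (χ : RayHom (Ideal.span {(N : 𝓞 E)}) (NormQuot E.fixingSubgroup P))
      (t : NormQuot E.fixingSubgroup P) (bad : Finset ℕ), N ≠ 0 ∧
      (∀ l : ℕ, (hl : l.Prime) → ¬ l ∣ N → L.UnrAt ⟨l, hl⟩) ∧
      AddSubgroup.zmultiples t = ⊤ ∧ 2 ^ (k + 1) • t = 0 ∧
      ∀ (A : ValuationSubring Qb) (l : ℕ) (hl : l.Prime) (hA : A.LiesOverPrime l),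
        l ∉ bad → ∀ φ : E.fixingSubgroup, A.IsFrobeniusAt (φ : Γ) l →
          ∀ a : ℕ, π φ = π σ₀ ^ a → χ.toFun (placeIn E A hl hA).asIdeal = a • t := by
  classical
  set S := (finite_ramified L).toFinset
  have hS : ∀ q ∉ S, L.UnrAt q := fun q hq =>
    by_contra fun h => hq ((Set.Finite.mem_toFinset _).2 h)
  obtain ⟨N, χ, hN, hSN, hsupp, hval, hplace⟩ := exists_rayHom_normQuot K.lvl K.lvl_le S hS
  have hm : Ideal.span {(N : 𝓞 E)} ≠ ⊥ :=
    mt Ideal.span_singleton_eq_bot.mp (Nat.cast_ne_zero.mpr hN)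
  set F : IntermediateField ℚ Qb := IntermediateField.fixedField P
  have := L.fin
  obtain ⟨hFfix, hFle⟩ := NormChar.fixing_fixedField_of_open (C := L.fld) K.lvl_le
  have : FiniteDimensional ℚ F :=
    FiniteDimensional.of_injective (IntermediateField.inclusion hFle).toLinearMap
      (IntermediateField.inclusion hFle).toRingHom.injective
  have hEF : E ≤ F := fun x hx => fun s => apply_eq_of_mem_fixing (K.le s.2) hx
  obtain ⟨t, bad, hle, ht, hv⟩ := exists_gen_value hEF π
    (fun g => by rw [hFfix]; exact K.mem_iff g) k hG σ₀ hgen hm χ N.primeFactors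
    fun A l hl hA hlN φ hφ hφA => by
      have hlN' : ¬ l ∣ N := fun h => hlN (Nat.mem_primeFactors.mpr ⟨hl, h, hN⟩)
      rw [hFfix] at hφ
      have hcard : Nat.card (𝓞 E ⧸ (placeIn E A hl hA).asIdeal) = l := by
        have h := absNorm_eq_of_isDegreeOne (isDegreeOne_of_frobenius_mem (hl := hl) (hA := hA) hφA
          (K.le hφ))
        rwa [Ideal.absNorm_apply, Submodule.cardQuot_apply] at h
      rw [hplace, placeCls_eq_zero K.lvl K.lvl_le hl hA (hS _ fun h => hlN' (hSN _ h)) hφ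
        (by rw [hcard]; exact hφA)]
      by_contra hco
      exact natCast_notMem_placeIn hl hA hlN'
        ((not_isCoprime_iff_le _ _).mp hco (Ideal.mem_span_singleton_self _))
  refine ⟨N, χ, t, bad, hN, fun l hl h => hS _ fun hq => h (hSN _ hq), ?_, ht, hv⟩
  rw [hval] at hle
  exact top_le_iff.mp hle

theorem natCard_le_of_gen {V : Type} [AddCommGroup V] {t : V} {n : ℕ} (hn : 0 < n)
    (htop : AddSubgroup.zmultiples t = ⊤) (ht : n • t = 0) : Nat.card V = addOrderOf t ∧
      Nat.card V ≤ n := by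
  have h : Nat.card V = addOrderOf t := by
    rw [← Nat.card_zmultiples, htop, AddSubgroup.card_top]
  exact ⟨h, h ▸ addOrderOf_le_of_nsmul_eq_zero hn ht⟩

local notation "HE" => IntermediateField.fixingSubgroup E

/-- The norm index of a quadratic layer of a totally complex field is two, and norm zero classes
are coboundaries. -/
theorem IsKerLayer.two (K : IsKerLayer π P L) (hc : IsTotallyComplex E)
    (hπ : Function.Surjective π) (hG : Nat.card G = 2) :
    Nat.card (NormQuot E.fixingSubgroup P) = 2 ∧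
      ∀ x ∈ fixSub (A := Cl) P, normTo E.fixingSubgroup P x = 0 →
        ∃ s ∈ E.fixingSubgroup, ∃ y ∈ fixSub (A := Cl) P, s • y - y = x := by
  classical
  have hidx : P.relIndex HE = 2 := (K.relIndex_eq hπ).trans hG
  have c : CStep 2 L HE P := ⟨K.lvl, K.lvl_le, hidx, fixesMu_two⟩
  obtain ⟨s, hs, hsP⟩ := c.exists_gen
  have hcH : IsTotallyComplex (fixField HE) := by
    rw [show fixField HE = E from InfiniteGalois.fixedField_fixingSubgroup E]
    exact hc
  obtain ⟨f0, f1, hcard⟩ := card_tate_cl_two c hs hsP hcH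
  set S := fixSub (A := Cl) P
  set σ := subAct s S (c.smul_mem_fixCl hs hsP) with hσ
  -- compare with the quotient by norms
  let Φ : (sigmaSub σ).ker →+ NormQuot HE P :=
    (QuotientAddGroup.mk' _).comp (AddMonoidHom.mk'
      (fun a => (⟨(a.1 : Cl), c.mem_fixSub_of_gen hs hsP a.1.2
        (sub_eq_zero.1 (congrArg Subtype.val a.2))⟩ : ↥(fixSub (A := Cl) HE)))
      fun a b => rfl)
  have hΦs : Function.Surjective Φ := by
    intro x
    obtain ⟨⟨d, hd⟩, rfl⟩ := QuotientAddGroup.mk_surjective x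
    exact ⟨⟨⟨d, fun t ht => hd t (c.hP.le ht)⟩, Subtype.ext (sub_eq_zero.2 (hd s hs))⟩, rfl⟩
  have hΦk : ∀ a, Φ a = 0 ↔ a ∈ (sigmaNorm σ 2).range.addSubgroupOf (sigmaSub σ).ker := by
    intro a
    refine (QuotientAddGroup.eq_zero_iff _).trans ?_
    show (a.1 : Cl) ∈ normSub HE P ↔ (a : S) ∈ (sigmaNorm σ 2).range
    rw [mem_normSub c.hP]
    constructor
    · rintro ⟨y, hy, hye⟩
      refine ⟨⟨y, hy⟩, Subtype.ext ?_⟩
      rw [coe_sigmaNorm_subAct, ← c.normTo_eq_sum hs hsP hy, hye]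
    · rintro ⟨y, hye⟩
      refine ⟨y.1, y.2, ?_⟩
      rw [c.normTo_eq_sum hs hsP y.2, ← coe_sigmaNorm_subAct s S (c.smul_mem_fixCl hs hsP), hye]
  let Ψ : TateQuot (sigmaSub σ) (sigmaNorm σ 2) →+ NormQuot HE P :=
    QuotientAddGroup.lift _ Φ fun a ha => (hΦk a).mpr ha
  have hΨ : Function.Bijective Ψ := by
    refine ⟨(injective_iff_map_eq_zero _).mpr fun x hx => ?_, fun x => ?_⟩
    · obtain ⟨a, rfl⟩ := QuotientAddGroup.mk_surjective x
      exact (QuotientAddGroup.eq_zero_iff _).mpr ((hΦk a).mp hx)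
    · obtain ⟨a, rfl⟩ := hΦs x
      exact ⟨QuotientAddGroup.mk a, rfl⟩
  have : Finite (NormQuot HE P) := Finite.of_surjective Ψ hΨ.2
  have hV : Nat.card (NormQuot HE P)
      = 2 * Nat.card (TateQuot (sigmaNorm σ 2) (sigmaSub σ)) :=
    (Nat.card_eq_of_bijective Ψ hΨ).symm.trans hcard
  obtain ⟨σ₀, hσ₀⟩ : ∃ σ₀ : E.fixingSubgroup, π σ₀ ≠ 1 :=
    ⟨⟨s, hs⟩, fun h => hsP ((K.mem_iff _).mp h)⟩
  have hG' : ∀ x : G, x ^ 2 ^ (0 + 1) = 1 := fun x => by
    rw [zero_add, pow_one, ← hG]
    exact pow_card_eq_one'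
  obtain ⟨N, χ, t, bad, -, -, htop, ht, -⟩ := K.exists_gen 0 hG' σ₀ fun g => by
    have h2 : Nat.card G = 2 := hG
    obtain ⟨a, -, ha⟩ := Finset.mem_image.mp
      ((isOfFinOrder_of_finite (π σ₀)).mem_zpowers_iff_mem_range_orderOf.mp
        (mem_zpowers_of_prime_card h2 hσ₀ (g' := π g)))
    exact ⟨a, ha.symm⟩
  have hle := (natCard_le_of_gen (pow_pos two_pos _) htop ht).2
  have hpos : 0 < Nat.card (TateQuot (sigmaNorm σ 2) (sigmaSub σ)) := Nat.card_pos
  rw [zero_add, pow_one] at hle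
  have hone : Nat.card (TateQuot (sigmaNorm σ 2) (sigmaSub σ)) = 1 := by omega
  refine ⟨by omega, fun x hx h0 => ?_⟩
  rw [c.normTo_eq_sum hs hsP hx] at h0
  obtain ⟨y, hy, hye⟩ := exists_sub_of_subsingleton (Nat.card_eq_one_iff_unique.1 hone).1 hx h0
  exact ⟨s, hs, y, hy, hye⟩

/-- An image of a subgroup of finite index has finite index in the image. -/
theorem relIndex_map_ne_zero {A B : Type*} [AddCommGroup A] [AddCommGroup B] (f : A →+ B)
    {C D : AddSubgroup A} (h : C.relIndex D ≠ 0) : (C.map f).relIndex (D.map f) ≠ 0 := by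
  have hfin : Finite (↥D ⧸ C.addSubgroupOf D) := Nat.finite_of_card_ne_zero h
  let f' : ↥D →+ ↥(D.map f) := (f.comp D.subtype).codRestrict _ fun a => ⟨a, a.2, rfl⟩
  let g : ↥D ⧸ C.addSubgroupOf D →+ ↥(D.map f) ⧸ (C.map f).addSubgroupOf (D.map f) :=
    QuotientAddGroup.map _ _ f' fun a ha => ⟨a, ha, rfl⟩
  have hg : Function.Surjective g := fun x => by
    obtain ⟨⟨b, a, ha, rfl⟩, rfl⟩ := QuotientAddGroup.mk_surjective x
    exact ⟨QuotientAddGroup.mk ⟨a, ha⟩, rfl⟩
  have := Finite.of_surjective g hg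
  show Nat.card (↥(D.map f) ⧸ (C.map f).addSubgroupOf (D.map f)) ≠ 0
  exact Nat.card_pos.ne'

/-- The Galois group of an abelian layer preserves the norm groups of its sublayers. -/
theorem IsKerLayer.smul_mem_normSub (K : IsKerLayer π P L) {H' : Subgroup GQ} (hP' : Lvl H' P)
    (hle : H' ≤ HE) {s : GQ} (hs : s ∈ HE) {c : Cl} (hc : c ∈ normSub H' P) :
    s • c ∈ normSub H' P := by
  have hcomm : ∀ t ∈ HE, s⁻¹ * t⁻¹ * s * t ∈ P := fun t ht => by
    let σ : E.fixingSubgroup := ⟨s, hs⟩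
    let τ : E.fixingSubgroup := ⟨t, ht⟩
    have h : π (σ⁻¹ * τ⁻¹ * σ * τ) = 1 := by
      rw [_root_.map_mul, _root_.map_mul, _root_.map_mul, _root_.map_inv, _root_.map_inv,
        mul_comm (π σ)⁻¹, inv_mul_cancel_right, inv_mul_cancel]
    exact (K.mem_iff _).mp h
  obtain ⟨y, hy, rfl⟩ := (mem_normSub hP').mp hc
  refine (mem_normSub hP').mpr ⟨s • y, fun u hu => ?_, ?_⟩
  · rw [← mul_smul, show u * s = s * (s⁻¹ * u * s) by group, mul_smul,
      hy _ (K.lvl.conj s hs u hu)]
  · have h1 : s • normTo H' P y = csum H' P (fun t => s • t • y) := smul_csum hP' s _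
    refine (csum_congr _ _ fun t ht => ?_).trans h1.symm
    have h2 : (t * s) • y = (s * t) • y := by
      rw [show s * t = t * s * (s⁻¹ * t⁻¹ * s * t) by group, mul_smul (t * s),
        hy _ (hcomm t (hle ht))]
    rw [← mul_smul, h2, mul_smul]

/-- The norm index of a cyclic layer of degree four is at least four. -/
theorem IsKerLayer.four (K : IsKerLayer π P L) (hc : IsTotallyComplex E) [IsCyclic G]
    (hπ : Function.Surjective π) (hG : Nat.card G = 4) :
    Finite (NormQuot E.fixingSubgroup P) ∧ 4 ≤ Nat.card (NormQuot E.fixingSubgroup P) := by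
  classical
  set T : Subgroup G := (powMonoidHom 2).ker with hT
  let π₂ : HE →* (powMonoidHom 2 : G →* G).range := (powMonoidHom 2).rangeRestrict.comp π
  set H' : Subgroup GQ := π₂.ker.map (HE).subtype with hH'
  have hH'le : H' ≤ HE := Subgroup.map_subtype_le _
  have hmem : ∀ g : HE, (g : GQ) ∈ H' ↔ π₂ g = 1 := fun g =>
    ⟨fun ⟨x, hx, hxg⟩ => Subtype.ext hxg ▸ hx, fun h => ⟨g, h, rfl⟩⟩
  have hPH' : P ≤ H' := fun x hx => (hmem ⟨x, K.le hx⟩).mpr (Subtype.ext (by
    show (π ⟨x, K.le hx⟩) ^ 2 = 1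
    rw [(K.mem_iff ⟨x, K.le hx⟩).mpr hx, one_pow]))
  have := L.fin
  obtain ⟨hE'fix, hE'le⟩ :=
    NormChar.fixing_fixedField_of_open (C := L.fld) (K.lvl_le.trans hPH')
  set E' : IntermediateField ℚ Qb := IntermediateField.fixedField H'
  have : FiniteDimensional ℚ E' :=
    FiniteDimensional.of_injective (IntermediateField.inclusion hE'le).toLinearMap
      (IntermediateField.inclusion hE'le).toRingHom.injective
  have hc' : IsTotallyComplex E' := by
    refine isTotallyComplex_fixField hH'le ?_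
    rw [show fixField HE = E from InfiniteGalois.fixedField_fixingSubgroup E]
    exact hc
  -- the two quadratic layers
  have hsq : (∀ x : G, (x ^ 2) ^ 2 = 1) := fun x => by
    rw [← pow_mul, show 2 * 2 = Nat.card G by rw [hG]]
    exact pow_card_eq_one'
  have hrange : Nat.card (powMonoidHom 2 : G →* G).range = 2 := by
    rw [IsCyclic.card_powMonoidHom_range, hG]
    norm_num
  have hker : Nat.card T = 2 := by
    rw [hT, IsCyclic.card_powMonoidHom_ker, hG]
    norm_num
  have K₂ : IsKerLayer π₂ H' L := ⟨hH'le, fun g => (hmem g).symm, K.lvl_le.trans hPH'⟩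
  obtain ⟨hV₂, hker₂⟩ := K₂.two hc
    (MonoidHom.rangeRestrict_surjective _ |>.comp hπ) hrange
  let π₁ : E'.fixingSubgroup →* T :=
    (π.comp (Subgroup.inclusion (hE'fix.le.trans hH'le))).codRestrict T fun g => by
      have h := (hmem ⟨g, hH'le (hE'fix.le g.2)⟩).mp (hE'fix.le g.2)
      exact congrArg Subtype.val h
  have hπ₁ : Function.Surjective π₁ := fun x => by
    obtain ⟨g, hg⟩ := hπ x
    have hgH' : (g : GQ) ∈ H' := (hmem g).mpr (Subtype.ext (by
      show π g ^ 2 = 1
      rw [hg]; exact x.2))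
    exact ⟨⟨g, hE'fix.ge hgH'⟩, Subtype.ext hg⟩
  have K₁ : IsKerLayer π₁ P L :=
    ⟨hPH'.trans hE'fix.ge, fun g => Subtype.ext_iff.trans (K.mem_iff _), K.lvl_le⟩
  obtain ⟨hV₁, -⟩ := K₁.two hc' hπ₁ hker
  rw [hE'fix] at hV₁
  have hP' := K₁.lvl
  rw [hE'fix] at hP'
  have hP := K.lvl
  have hH'l := K₂.lvl
  have hconj : ∀ s ∈ HE, ∀ c ∈ normSub H' P, s • c ∈ normSub H' P := fun s hs c hc =>
    K.smul_mem_normSub hP' hH'le hs hc
  -- the tower of norm groups
  have hBA : normSub HE H' ≤ fixSub (A := Cl) HE := normSub_le hH'l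
  have hCB : normSub HE P ≤ normSub HE H' := fun x hx => by
    obtain ⟨y, hy, rfl⟩ := (mem_normSub hP).mp hx
    exact (mem_normSub hH'l).mpr
      ⟨normTo H' P y, normTo_mem_fixSub hP' hy, normTo_tower hP hH'le hPH' hy⟩
  have hCimage : normSub HE P = (normSub H' P).map (normHom (A := Cl) hH'l) := by
    ext x
    rw [AddSubgroup.mem_map, mem_normSub hP]
    constructor
    · rintro ⟨y, hy, rfl⟩
      exact ⟨normTo H' P y, (mem_normSub hP').mpr ⟨y, hy, rfl⟩,
        normTo_tower hP hH'le hPH' hy⟩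
    · rintro ⟨w, hw, rfl⟩
      obtain ⟨y, hy, rfl⟩ := (mem_normSub hP').mp hw
      exact ⟨y, hy, (normTo_tower hP hH'le hPH' hy).symm⟩
  have hBimage : normSub HE H' = (fixSub (A := Cl) H').map (normHom (A := Cl) hH'l) := by
    ext x
    rw [AddSubgroup.mem_map, mem_normSub hH'l]
    rfl
  have hne : (normSub HE P).relIndex (normSub HE H') ≠ 0 := by
    rw [hCimage, hBimage]
    refine relIndex_map_ne_zero _ ?_
    rw [← natCard_normQuot, hV₁]
    norm_num
  have hCBne : (normSub HE P).relIndex (normSub HE H') ≠ 1 := by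
    intro h1
    rw [AddSubgroup.relIndex_eq_one] at h1
    -- every fixed class of the middle field would be a norm
    have hall : (normSub H' P).addSubgroupOf (fixSub (A := Cl) H') = ⊤ := by
      refine eq_top_iff.mpr fun ⟨y, hy⟩ _ => ?_
      show y ∈ normSub H' P
      obtain ⟨z, hz, hze⟩ := (mem_normSub hP).mp
        (h1 ((mem_normSub hH'l).mpr ⟨y, hy, rfl⟩))
      have hz' : normTo H' P z ∈ normSub H' P := (mem_normSub hP').mpr ⟨z, hz, rfl⟩
      have hd0 : normTo HE H' (y - normTo H' P z) = 0 := by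
        rw [← normHom_apply hH'l, map_sub, normHom_apply, normHom_apply,
          normTo_tower hP hH'le hPH' hz, hze, sub_self]
      obtain ⟨s, hs, u, hu, hue⟩ := hker₂ _ (sub_mem hy (normTo_mem_fixSub hP' hz)) hd0
      have hsu : s • u ∈ fixSub (A := Cl) H' := fun t ht => by
        rw [← mul_smul, show t * s = s * (s⁻¹ * t * s) by group, mul_smul,
          hu _ (hH'l.conj s hs t ht)]
      have hkey : s • u - u ∈ normSub H' P := by
        set N₁ := (normSub H' P).addSubgroupOf (fixSub (A := Cl) H')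
        have hidx : N₁.index = 2 := hV₁
        have hiff : (⟨u, hu⟩ : ↥(fixSub (A := Cl) H')) ∈ N₁ ↔
            (⟨s • u, hsu⟩ : ↥(fixSub (A := Cl) H')) ∈ N₁ := by
          refine ⟨fun h => hconj s hs u h, fun h => ?_⟩
          have h2 := hconj s⁻¹ (inv_mem hs) _ h
          rwa [AddSubgroup.subtype_apply, inv_smul_smul] at h2
        have h3 : (⟨s • u, hsu⟩ : ↥(fixSub (A := Cl) H')) + -⟨u, hu⟩ ∈ N₁ := by
          rw [AddSubgroup.add_mem_iff_of_index_two hidx, neg_mem_iff]
          exact hiff.symm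
        rw [sub_eq_add_neg]
        exact h3
      rw [show y = (s • u - u) + normTo H' P z by rw [hue, sub_add_cancel]]
      exact add_mem hkey hz'
    have h2 : ((normSub H' P).addSubgroupOf (fixSub (A := Cl) H')).index = 2 := hV₁
    rw [hall, AddSubgroup.index_top] at h2
    omega
  have hmul := AddSubgroup.relIndex_mul_relIndex _ _ _ hCB hBA
  have hA : (normSub HE H').relIndex (fixSub (A := Cl) HE) = 2 := hV₂
  have hcard : Nat.card (NormQuot HE P) = (normSub HE P).relIndex (normSub HE H') * 2 := by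
    rw [natCard_normQuot, ← hmul, hA]
  exact ⟨Nat.finite_of_card_ne_zero (by omega), by omega⟩

end FLTAgent.LT.Recip
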