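import Fermat.Agent.Global.CFT.FirstIneq
import Fermat.Agent.Global.Semilocal.SemiUnits
import Fermat.Agent.Global.Semilocal.PowerIndex

/-!
# The norm subgroup of the idele classes of a layer
-/

set_option autoImplicit false
set_option linter.unusedSectionVars false
set_option synthInstance.maxHeartbeats 400000

noncomputable section

namespace FLTAgent.LT.Recip

open FLTAgent.Global

section norm

variable {A : Type*} [AddCommGroup A] [DistribMulAction GQ A] {H P : Subgroup GQ}

/-- The norm of a layer as a homomorphism. -/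
def normHom (hP : Lvl H P) : A →+ A :=
  AddMonoidHom.mk' (normTo H P) fun a b => by
    simp only [normTo, smul_add]
    rw [csum_add H P hP.fin]

@[simp] theorem normHom_apply (hP : Lvl H P) (a : A) : normHom hP a = normTo H P a := rfl

theorem normTo_fixed (hP : Lvl H P) {x : A} (hx : x ∈ fixSub (A := A) H) :
    normTo H P x = P.relIndex H • x := by
  rw [normTo, csum_congr H P fun t ht => hx t ht, csum_const hP]

theorem map_normTo {B : Type*} [AddCommGroup B] [DistribMulAction GQ B] (hP : Lvl H P) (f : A →+ B)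
    (hf : ∀ (g : GQ) (a : A), f (g • a) = g • f a) (a : A) :
    f (normTo H P a) = normTo H P (f a) := by
  rw [normTo, map_csum H P hP.fin]
  exact csum_congr H P fun t _ => hf t a

end norm

/-- The norms from `P` in the classes of `H`. -/
def normSub (H P : Subgroup GQ) : AddSubgroup Cl := AddSubgroup.closure (clNorms H P)

theorem mem_normSub {H P : Subgroup GQ} (hP : Lvl H P) {c : Cl} :
    c ∈ normSub H P ↔ ∃ y ∈ fixSub (A := Cl) P, normTo H P y = c := by
  have h : (normSub H P : AddSubgroup Cl) = (fixSub (A := Cl) P).map (normHom hP) :=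
    le_antisymm ((AddSubgroup.closure_le _).mpr fun _ hx => hx)
      fun _ hx => AddSubgroup.subset_closure hx
  rw [h]
  exact Iff.rfl

theorem normSub_le {H P : Subgroup GQ} (hP : Lvl H P) : normSub H P ≤ fixSub (A := Cl) H :=
  fun c hc => by
    obtain ⟨y, hy, rfl⟩ := (mem_normSub hP).mp hc
    exact normTo_mem_fixSub hP hy

/-- Idele classes of `H` modulo norms from `P`. -/
abbrev NormQuot (H P : Subgroup GQ) : Type :=
  ↥(fixSub (A := Cl) H) ⧸ (normSub H P).addSubgroupOf (fixSub (A := Cl) H)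

theorem natCard_normQuot (H P : Subgroup GQ) :
    Nat.card (NormQuot H P) = (normSub H P).relIndex (fixSub (A := Cl) H) := rfl

/-- The class of a fixed idele. -/
def clMap (H P : Subgroup GQ) : ↥(fixSub (A := Idele) H) →+ NormQuot H P :=
  (QuotientAddGroup.mk' _).comp ((toCl.comp (fixSub (A := Idele) H).subtype).codRestrict _
    fun x t ht => by
      show t • toCl x.1 = toCl x.1
      rw [smul_toCl, x.2 t ht])

theorem clMap_eq_zero {H P : Subgroup GQ} {x : ↥(fixSub (A := Idele) H)} :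
    clMap H P x = 0 ↔ toCl x.1 ∈ normSub H P :=
  (QuotientAddGroup.eq_zero_iff _).trans Iff.rfl

theorem clMap_surjective (L : Level) {H P : Subgroup GQ} (hH : L.grp ≤ H) :
    Function.Surjective (clMap H P) := by
  intro c
  obtain ⟨⟨d, hd⟩, rfl⟩ := QuotientAddGroup.mk_surjective c
  obtain ⟨x, hx, rfl⟩ := exists_fix_toCl_eq L hH hd
  exact ⟨⟨x, hx⟩, rfl⟩

variable {L : Level} {H P : Subgroup GQ} (hP : Lvl H P) (hLP : L.grp ≤ P)

include hP hLP

/-- An idele is a norm class as soon as each component is a norm, of a unit for almost all. -/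
theorem toCl_mem_normSub {x : Idele} (Q : Finset Nat.Primes)
    (h : ∀ q, ∃ y ∈ fixSub (A := Semi q) P, normTo H P y = comp q x ∧
      (q ∉ Q → y ∈ semiUnit q)) :
    toCl x ∈ normSub H P := by
  classical
  choose y hy hye hyu using h
  set Y := mkIdele L y (fun q t ht => hy q t (hLP ht))
    (Q.finite_toSet.subset fun q hq => by_contra fun h => hq (hyu q h))
  have hY : Y ∈ fixSub (A := Idele) P := mkIdele_mem_fixSub _ _ _ _ hy
  refine (mem_normSub hP).mpr ⟨toCl Y, fun t ht => by rw [smul_toCl, hY t ht], ?_⟩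
  have hcl : toCl (normTo H P Y) = normTo H P (toCl Y) :=
    map_normTo (A := Idele) (B := Cl) hP toCl (fun g a => (smul_toCl g a).symm) Y
  refine hcl.symm.trans ?_
  refine congrArg toCl (idele_ext fun q => ?_)
  exact (map_normTo hP (comp q) (fun g a => comp_smul q g a) Y).trans (hye q)

/-- A fixed unit idele is a norm class if it is an `n`-th power at the ramified primes. -/
theorem toCl_mem_normSub_of_units {x : Idele} (hx : x ∈ fixSub (A := Idele) H)
    (h : ∀ q, (L.UnrAt q ∧ comp q x ∈ semiUnit q) ∨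
      ∃ y ∈ semiUnit q ⊓ fixSub (A := Semi q) H, P.relIndex H • y = comp q x) :
    toCl x ∈ normSub H P := by
  refine toCl_mem_normSub hP hLP ∅ fun q => ?_
  rcases h q with ⟨hu, hx'⟩ | ⟨y, hy, hye⟩
  · obtain ⟨z, hz, hze⟩ :=
      exists_normTo_semiUnit L q hu (hLP.trans hP.le) ⟨hx', comp_mem_fixSub hx q⟩
    refine ⟨normTo P L.grp z, normTo_mem_fixSub (L.lvl hLP) hz.2, ?_, fun _ =>
      csum_mem (semiUnit q).toAddSubmonoid fun g _ => smul_mem_semiUnit q hz.1 g⟩
    rw [normTo_tower (L.lvl (hLP.trans hP.le)) hP.le hLP hz.2, hze]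
  · exact ⟨y, fun t ht => hy.2 t (hP.le ht), (normTo_fixed hP hy.2).trans hye, fun _ => hy.1⟩

omit hP hLP in
/-- Fixed elements close to `1` at all places over `q` are `n`-th powers of fixed units. -/
theorem exists_near_nsmul (L : Level) {H : Subgroup GQ} (hH : L.grp ≤ H) (q : Nat.Primes) {n : ℕ}
    (hn : n ≠ 0) :
    ∃ ε : ℝ, 0 < ε ∧ ∀ x ∈ fixSub (A := Semi q) H, (∀ g, ‖sval x g - 1‖ ≤ ε) →
      ∃ y ∈ semiUnit q ⊓ fixSub (A := Semi q) H, n • y = x := by
  obtain ⟨D⟩ := nonempty_normalData L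
  have hnq : (n : ℚ_[(q : ℕ)]) ≠ 0 := Nat.cast_ne_zero.mpr hn
  set a := padicValNat (q : ℕ) n with ha
  have hnm : ‖(n : ℚ_[(q : ℕ)])‖ = qinv q ^ a := by
    rw [Padic.norm_eq_zpow_neg_valuation hnq, Padic.valuation_natCast, ← ha, qinv, inv_pow,
      zpow_neg, zpow_natCast]
  obtain ⟨n₁, hle, -, -, hmap⟩ := exists_nhdFix_nsmul (q := q) D H hn hnm
  obtain ⟨R, hR0, hR⟩ := D.exists_norm_coef_le q
  have hb : 0 < qinv q ^ (n₁ + a + 1) := pow_pos (qinv_pos q) _
  refine ⟨qinv q ^ (n₁ + a + 1) / (R + 1), div_pos hb (by linarith), fun x hx hg => ?_⟩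
  obtain ⟨c, hc⟩ := exists_isCoef (D := D) (x := x) fun s hs => hx s (hH hs)
  have hcn : ‖c‖ ≤ qinv q ^ (n₁ + a + 1) := by
    refine (hR c (qinv q ^ (n₁ + a + 1) / (R + 1)) (div_pos hb (by linarith : (0 : ℝ) < R + 1)).le
      fun g => ?_).trans ?_
    · have h1 : (D.elem q c : GQ → Kq q) g = sval x g + -1 := by
        rw [show D.elem q c = toAlg x - 1 by rw [hc]; abel]
        simp [sub_eq_add_neg]
      rw [h1, ← sub_eq_add_neg]
      exact hg g
    · rw [mul_div_assoc', div_le_iff₀ (by positivity), mul_comm R]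
      exact mul_le_mul_of_nonneg_left (by linarith) hb.le
  have hmem : (⟨x, hx⟩ : ↥(fixSub (A := Semi q) H)) ∈ nhdFix D H (n₁ + a) := ⟨c, hc, hcn⟩
  rw [← hmap] at hmem
  obtain ⟨y, hy, hye⟩ := hmem
  exact ⟨y, ⟨hle hy, y.2⟩, congrArg Subtype.val hye⟩

end FLTAgent.LT.Recip
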